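/-
S41 support (helper18): `#E[p](K) = p²` for an elliptic curve over an algebraically closed field
of characteristic zero, `p` an odd prime.  Built on the LANDED S13 package [T]
(`XsDef.xs`, `TS51.nsmul_eq_zero_iff`, `TS51.denom_ne_zero_of_nsmul_eq_some`, the degree formula
`TL.xs_natDegree_of_height` / `THFinal.max_natDegree_xs`, and the count `TC29`).

Proof of the lower bound (generic fibre of `[p]`): `xs W p = A / B` with `A, B` coprime,
`deg A = p² = deg B + 1`.  The Wronskian `A'B - AB'` is nonzero, so for all but finitely many `t`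
the polynomial `A - tB` has `p²` distinct roots `xᵢ`, none a root of `B`.  Points `Pᵢ` above the
`xᵢ` satisfy `x(p • Pᵢ) = t`, i.e. `p • Pᵢ = ± Q` for a fixed `Q` above `t`; changing signs we get
`p²` points with pairwise distinct `x`-coordinates in one fibre of `[p]`, hence `p²` elements of
`E[p]`.  Complete (no placeholders).
-/
import Mathlib
import Fermat.Agent.S13.TDivPoly51
import Fermat.Agent.S13.TC29
import Fermat.Agent.S13.THFinal

set_option autoImplicit false

open Polynomial

namespace Fermat.Agent.S41.TorsCard18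

section poly

variable {K : Type*} [Field K]

/-- Wronskian of two coprime polynomials, the first of positive degree, is nonzero in char 0. -/
theorem wronskian_ne_zero [CharZero K] {A B : K[X]} (hAB : IsCoprime A B)
    (hA : A.natDegree ≠ 0) : derivative A * B - A * derivative B ≠ 0 := by
  intro h
  have h1 : A ∣ derivative A * B := by
    rw [sub_eq_zero] at h
    rw [h]
    exact dvd_mul_right _ _
  have h2 : A ∣ derivative A := hAB.dvd_of_dvd_mul_right h1
  have h3 : derivative A = 0 := by
    by_contra hne
    have := natDegree_le_of_dvd h2 hne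
    have h4 := natDegree_derivative_lt hA
    omega
  exact hA (Polynomial.derivative_eq_zero.mp h3)

/-- coprime polynomials have no common root -/
theorem not_common_root {A B : K[X]} (hAB : IsCoprime A B) (x : K) (hA : A.eval x = 0)
    (hB : B.eval x = 0) : False := by
  obtain ⟨u, v, huv⟩ := hAB
  have := congrArg (eval x) huv
  simp [hA, hB] at this

/-- For coprime `A, B` with `deg B < deg A` over an algebraically closed field of characteristic
zero, some member `A - t B` of the pencil is separable of degree `deg A`, with no root at a zero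
of `B`. -/
theorem exists_separable_sub [IsAlgClosed K] [CharZero K] {A B : K[X]} (hAB : IsCoprime A B)
    (hdeg : B.natDegree < A.natDegree) :
    ∃ t : K, (A - C t * B).natDegree = A.natDegree ∧ (A - C t * B).Separable ∧
      ∀ x, (A - C t * B).IsRoot x → B.eval x ≠ 0 := by
  classical
  have hA : A.natDegree ≠ 0 := by omega
  set w : K[X] := derivative A * B - A * derivative B with hw
  have hw0 : w ≠ 0 := wronskian_ne_zero hAB hA
  let T : Finset K := w.roots.toFinset.image (fun x => A.eval x / B.eval x)
  obtain ⟨t, ht⟩ := Infinite.exists_notMem_finset T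
  have hroot : ∀ x, (A - C t * B).IsRoot x → B.eval x ≠ 0 := by
    intro x hx hB
    have hAx : A.eval x = 0 := by
      have := hx
      simp only [IsRoot.def, eval_sub, eval_mul, eval_C, hB, mul_zero, sub_zero] at this
      exact this
    exact not_common_root hAB x hAx hB
  refine ⟨t, ?_, ?_, hroot⟩
  · apply natDegree_sub_eq_left_of_natDegree_lt
    calc (C t * B).natDegree ≤ B.natDegree := natDegree_C_mul_le t B
      _ < A.natDegree := hdeg
  · rw [separable_def, Polynomial.isCoprime_iff_aeval_ne_zero_of_isAlgClosed (k := K) K]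
    intro x
    by_contra hcon
    obtain ⟨h1, h2⟩ := not_or.mp hcon
    rw [not_not] at h1 h2
    simp only [coe_aeval_eq_eval] at h1 h2
    have hBx : B.eval x ≠ 0 := hroot x h1
    have e1 : A.eval x = t * B.eval x := by
      simp only [eval_sub, eval_mul, eval_C] at h1
      exact sub_eq_zero.mp h1
    have e2 : (derivative A).eval x = t * (derivative B).eval x := by
      simp only [derivative_sub, derivative_mul, derivative_C, zero_mul, zero_add, eval_sub,
        eval_mul, eval_C] at h2
      exact sub_eq_zero.mp h2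
    have hwx : w.eval x = 0 := by
      simp only [hw, eval_sub, eval_mul, e1, e2]
      ring
    have hxT : A.eval x / B.eval x ∈ T := by
      refine Finset.mem_image.mpr ⟨x, ?_, rfl⟩
      rw [Multiset.mem_toFinset, mem_roots hw0]
      exact hwx
    apply ht
    have : t = A.eval x / B.eval x := by
      rw [e1]; field_simp
    rw [this]
    exact hxT

end poly

section curve

open WeierstrassCurve WeierstrassCurve.Affine Fermat.Agent.S13 Fermat.Agent.S13.XsDef

variable {K : Type*} [Field K] [IsAlgClosed K] [CharZero K] [DecidableEq K] {W : Affine K}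

/-- a point above `x` whose `p`-th multiple is a prescribed point `Q` above
`t = (xs W p)(x)`. -/
theorem exists_point_nsmul_eq (hΔ : W.Δ ≠ 0) {p : ℕ} (hp1 : 1 ≤ p) {t s : K}
    (hQ : W.Nonsingular t s) {x : K} (hB : (xs W p).denom.eval x ≠ 0)
    (hx : (xs W p).num.eval x = t * (xs W p).denom.eval x) :
    ∃ (y : K) (h : W.Nonsingular x y), p • Point.some x y h = Point.some t s hQ := by
  obtain ⟨y₀, h₀⟩ := TDivPoly51.exists_point hΔ x
  rcases hn : p • Point.some x y₀ h₀ with _ | ⟨xₙ, yₙ, hₙ⟩
  · exact absurd ((TS51.nsmul_eq_zero_iff hΔ h₀ p hp1).mp hn) hB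
  · obtain ⟨-, hxn⟩ := TS51.denom_ne_zero_of_nsmul_eq_some hΔ h₀ p hp1 hn
    have hxt : xₙ = t := by
      rw [hx] at hxn
      exact mul_right_cancel₀ hB hxn
    subst hxt
    rcases Y_eq_of_X_eq hₙ.1 hQ.1 rfl with hy | hy
    · subst hy
      exact ⟨y₀, h₀, hn⟩
    · subst hy
      refine ⟨W.negY x y₀, (nonsingular_neg ..).mpr h₀, ?_⟩
      have h1 : Point.some x (W.negY x y₀) ((nonsingular_neg ..).mpr h₀) =
          -Point.some x y₀ h₀ := rfl
      rw [h1, smul_neg, hn, Point.neg_some]
      congr 1
      exact negY_negY ..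

/-- lower bound `p² ≤ #E[p]` (any `p ≥ 1`). -/
theorem sq_le_card_torsion (hΔ : W.Δ ≠ 0) {p : ℕ} (hp1 : 1 ≤ p)
    [Finite (Submodule.torsionBy ℤ W.Point p)] :
    p ^ 2 ≤ Nat.card (Submodule.torsionBy ℤ W.Point p) := by
  classical
  set A := (xs W p).num with hAdef
  set B := (xs W p).denom with hBdef
  have hcop : IsCoprime A B := RatFunc.isCoprime_num_denom _
  obtain ⟨hdA, hdB⟩ := TL.xs_natDegree_of_height W hp1
    (THFinal.max_natDegree_xs hΔ two_ne_zero p hp1)
  have hp2pos : 1 ≤ p ^ 2 := Nat.one_le_pow _ _ hp1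
  have hlt : B.natDegree < A.natDegree := by
    rw [hdA, hdB]; omega
  obtain ⟨t, hdeg, hsep, hroot⟩ := exists_separable_sub hcop hlt
  set g := A - C t * B with hg
  have hg0 : g ≠ 0 := by
    intro h0
    rw [h0, natDegree_zero] at hdeg
    omega
  have hnodup : g.roots.Nodup := nodup_roots hsep
  set S : Finset K := g.roots.toFinset with hS
  have hcard : S.card = p ^ 2 := by
    rw [hS, Multiset.toFinset_card_of_nodup hnodup, IsAlgClosed.card_roots_eq_natDegree, hdeg, hdA]
  obtain ⟨s, hQ⟩ := TDivPoly51.exists_point hΔ t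
  -- the points above the roots
  have hex : ∀ x : ↥S, ∃ (y : K) (h : W.Nonsingular x.1 y),
      p • Point.some x.1 y h = Point.some t s hQ := by
    intro x
    have hxroot : g.IsRoot x.1 := (mem_roots hg0).mp (Multiset.mem_toFinset.mp (hS ▸ x.2))
    have hBx : B.eval x.1 ≠ 0 := hroot x.1 hxroot
    have hAx : A.eval x.1 = t * B.eval x.1 := by
      have := hxroot
      simp only [hg, IsRoot.def, eval_sub, eval_mul, eval_C] at this
      exact sub_eq_zero.mp this
    exact exists_point_nsmul_eq hΔ hp1 hQ hBx hAx
  choose y hy hP using hex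
  let F : ↥S → W.Point := fun x => Point.some x.1 (y x) (hy x)
  have hF : ∀ x, p • F x = Point.some t s hQ := hP
  have hFinj : Function.Injective F := by
    intro x x' h
    have : x.1 = x'.1 := by
      simp only [F, Point.some.injEq] at h
      exact h.1
    exact Subtype.ext this
  have hne : S.Nonempty := by
    rw [← Finset.card_pos, hcard]; omega
  obtain ⟨x₁, hx₁⟩ := hne
  let G : ↥S → Submodule.torsionBy ℤ W.Point p := fun x =>
    ⟨F x - F ⟨x₁, hx₁⟩, by
      rw [Submodule.mem_torsionBy_iff, smul_sub, natCast_zsmul, natCast_zsmul, hF, hF, sub_self]⟩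
  have hGinj : Function.Injective G := by
    intro x x' h
    have h' : F x - F ⟨x₁, hx₁⟩ = F x' - F ⟨x₁, hx₁⟩ := congrArg Subtype.val h
    exact hFinj (sub_left_injective h')
  have := Nat.card_le_card_of_injective G hGinj
  rwa [Nat.card_eq_fintype_card, Fintype.card_coe, hcard] at this

/-- **`#E[p] = p²`** for an odd prime `p`, over an algebraically closed field of characteristic
zero. -/
theorem card_torsion_prime (hΔ : W.Δ ≠ 0) {p : ℕ} (hp : p.Prime) (hp2 : p ≠ 2) :
    Nat.card (Submodule.torsionBy ℤ W.Point p) = p ^ 2 := by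
  classical
  have h3 : 3 ≤ p := by
    have := hp.two_le
    omega
  obtain ⟨hfin, -, hlt⟩ := TC29.count_of_isDivPoly W hΔ p h3 _ (TDivPoly51.isDivPoly hΔ hp hp2)
  have hle := sq_le_card_torsion (W := W) hΔ hp.one_lt.le
  -- `E[p]` is an `𝔽_p`-vector space, so its cardinality is a power of `p`
  have : Fact p.Prime := ⟨hp⟩
  let inst : Module (ZMod p) (Submodule.torsionBy ℤ W.Point p) :=
    AddCommGroup.zmodModule fun x => by
      rw [← Nat.cast_smul_eq_nsmul ℤ p x]
      exact Submodule.smul_torsionBy _ x
  have hMF : Module.Finite (ZMod p) (Submodule.torsionBy ℤ W.Point p) :=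
    Module.Finite.of_finite (R := ZMod p) (M := Submodule.torsionBy ℤ W.Point p)
  have hpow := @Module.natCard_eq_pow_finrank (ZMod p) (Submodule.torsionBy ℤ W.Point (p : ℤ))
    _ _ inst hMF
  rw [Nat.card_zmod] at hpow
  set k := Module.finrank (ZMod p) (Submodule.torsionBy ℤ W.Point p)
  rw [hpow] at hle hlt ⊢
  have hk2 : 2 ≤ k := (Nat.pow_le_pow_iff_right hp.one_lt).mp hle
  have hk3 : k < 3 := (Nat.pow_lt_pow_iff_right hp.one_lt).mp hlt
  have : k = 2 := by omega
  rw [this]

end curve

end Fermat.Agent.S41.TorsCard18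

namespace Fermat.Agent.S41.TorsCard18

open WeierstrassCurve WeierstrassCurve.Affine

/-- the base change of an elliptic curve over `ℚ` to `ℚ̄` has `p²` points of order dividing `p`
(`p` an odd prime); this is the torsion module of `GaloisRepIsIrreducible`. -/
theorem card_torsion_prime_Qbar (E : WeierstrassCurve ℚ) [E.IsElliptic]
    [DecidableEq (AlgebraicClosure ℚ)] {p : ℕ} (hp : p.Prime) (hp2 : p ≠ 2) :
    Nat.card (Submodule.torsionBy ℤ (E⁄(AlgebraicClosure ℚ)).Point p) = p ^ 2 := by
  apply card_torsion_prime _ hp hp2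
  have h : (E.baseChange (AlgebraicClosure ℚ)).Δ =
      algebraMap ℚ (AlgebraicClosure ℚ) E.Δ := WeierstrassCurve.map_Δ ..
  show (E.baseChange (AlgebraicClosure ℚ)).Δ ≠ 0
  rw [h]
  exact (_root_.map_ne_zero _).mpr E.isUnit_Δ.ne_zero

end Fermat.Agent.S41.TorsCard18
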